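/-
PROJECT T (S56), block (a1): the COUNTING SPINE of the Greenberg–Wiles inequality.
Model-independent linear algebra over a field `F` (in the application `F = ZMod p`):

* `finrank_add_le_of_recip`   (I)  : the Taylor–Wiles step from the reciprocity law alone;
* `finrank_annih_inf_ge`      (LA) : `dim (B ⊓ L^⊥) ≥ dim P' - dim A - dim L + dim (A ⊓ L)` when `B`
                                     contains the annihilator of `A`;
* `selmer_le_dualSelmer`      (II) : `dim λ⁻¹(L) ≤ dim λ'⁻¹(L^⊥) + c` from the HARD inclusion of middle
                                     exactness and ONE numerical inequality.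
Nothing here knows about Galois groups.
-/
import Mathlib

set_option autoImplicit false

namespace Fermat.Agent.S56.TW.Spine

open Module Submodule

variable {F : Type*} [Field F]

section Annih

variable {P P' : Type*} [AddCommGroup P] [Module F P] [AddCommGroup P'] [Module F P']

/-- The right annihilator of a subspace `L ⊆ P` under a bilinear pairing `β : P × P' → F`. -/
def annih (β : P →ₗ[F] P' →ₗ[F] F) (L : Submodule F P) : Submodule F P' where
  carrier := {y | ∀ x ∈ L, β x y = 0}
  add_mem' := fun {a b} ha hb x hx => by rw [map_add, ha x hx, hb x hx, add_zero]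
  zero_mem' := fun x _ => by rw [map_zero]
  smul_mem' := fun c y hy x hx => by rw [map_smul, hy x hx, smul_zero]

lemma mem_annih {β : P →ₗ[F] P' →ₗ[F] F} {L : Submodule F P} {y : P'} :
    y ∈ annih β L ↔ ∀ x ∈ L, β x y = 0 := Iff.rfl

lemma annih_sup (β : P →ₗ[F] P' →ₗ[F] F) (A L : Submodule F P) :
    annih β (A ⊔ L) = annih β A ⊓ annih β L := by
  ext y
  simp only [mem_annih, Submodule.mem_inf]
  constructor
  · intro h
    exact ⟨fun x hx => h x (Submodule.mem_sup_left hx), fun x hx => h x (Submodule.mem_sup_right hx)⟩
  · rintro ⟨h1, h2⟩ x hx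
    obtain ⟨a, ha, l, hl, rfl⟩ := Submodule.mem_sup.1 hx
    rw [map_add, LinearMap.add_apply, h1 a ha, h2 l hl, add_zero]

variable [FiniteDimensional F P] [FiniteDimensional F P']

/-- The annihilator of `W` has dimension at least `dim P' - dim W`. -/
lemma finrank_annih_ge (β : P →ₗ[F] P' →ₗ[F] F) (W : Submodule F P) :
    finrank F P' ≤ finrank F (annih β W) + finrank F W := by
  -- `annih β W` is the kernel of `P' → W^*`
  let r : P' →ₗ[F] (W →ₗ[F] F) :=
    { toFun := fun y => (β.flip y).comp W.subtype
      map_add' := fun a b => by ext x; simp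
      map_smul' := fun c a => by ext x; simp }
  have hker : LinearMap.ker r = annih β W := by
    ext y
    simp only [LinearMap.mem_ker, mem_annih]
    constructor
    · intro h x hx
      have := congrArg (fun f => f ⟨x, hx⟩) h
      simpa [r] using this
    · intro h
      ext x
      simpa [r] using h x x.2
  have h1 := LinearMap.finrank_range_add_finrank_ker r
  have h2 : finrank F (LinearMap.range r) ≤ finrank F (W →ₗ[F] F) := Submodule.finrank_le _
  have h3 : finrank F (W →ₗ[F] F) = finrank F W := Subspace.dual_finrank_eq
  rw [hker] at h1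
  omega

/-- (LA) if `B` contains the annihilator of `A`, then
`dim P' + dim (A ⊓ L) ≤ dim (B ⊓ L^⊥) + dim A + dim L`. -/
lemma finrank_annih_inf_ge (β : P →ₗ[F] P' →ₗ[F] F) (A L : Submodule F P) (B : Submodule F P')
    (hB : annih β A ≤ B) :
    finrank F P' + finrank F ↥(A ⊓ L) ≤
      finrank F ↥(B ⊓ annih β L) + finrank F A + finrank F L := by
  have h1 := finrank_annih_ge β (A ⊔ L)
  have h2 : finrank F ↥(annih β (A ⊔ L)) ≤ finrank F ↥(B ⊓ annih β L) := by
    apply Submodule.finrank_mono
    rw [annih_sup]
    exact inf_le_inf_right _ hB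
  have h3 := Submodule.finrank_sup_add_finrank_inf_eq A L
  omega

end Annih

section Recip

variable {T W D : Type*} [AddCommGroup T] [Module F T] [AddCommGroup W] [Module F W]
  [AddCommGroup D] [Module F D] [FiniteDimensional F T] [FiniteDimensional F W]
  [FiniteDimensional F D]

/-- (I) the Taylor–Wiles step: `φ : T → W` (localisation at the new primes modulo unramified
classes), `B : W × D → F` (sum of the local pairings with the dual Selmer group `D`);
reciprocity `B (φ x) y = 0` and right non-degeneracy give
`dim T + dim D ≤ dim ker φ + dim W`. -/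
theorem finrank_add_le_of_recip (φ : T →ₗ[F] W) (B : W →ₗ[F] D →ₗ[F] F)
    (hrec : ∀ x y, B (φ x) y = 0) (hnd : ∀ y, (∀ w, B w y = 0) → y = 0) :
    finrank F T + finrank F D ≤ finrank F (LinearMap.ker φ) + finrank F W := by
  have h1 := LinearMap.finrank_range_add_finrank_ker φ
  -- `annih B (range φ) = ⊤`, so `dim D ≤ dim annih (range φ)`... use the flipped pairing
  have h2 := finrank_annih_ge B.flip (⊤ : Submodule F D)
  -- annihilator (in `W`) of all of `D` under the flipped pairing contains `range φ`
  have h3 : LinearMap.range φ ≤ annih B.flip (⊤ : Submodule F D) := by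
    rintro _ ⟨x, rfl⟩ y _
    exact hrec x y
  -- and: dim W ≥ dim annih + dim D, by injectivity of D → W^*
  let r : D →ₗ[F] (W →ₗ[F] F) := B.flip
  have hr : Function.Injective r := by
    rw [← LinearMap.ker_eq_bot, LinearMap.ker_eq_bot']
    intro y hy
    exact hnd y fun w => by simpa [r] using congrArg (fun f => f w) hy
  -- the annihilator of `D` in `W` is the dual annihilator of the image of `D` in `W^*`
  have h4 : finrank F ↥(annih B.flip (⊤ : Submodule F D)) + finrank F D = finrank F W := by
    have himg : finrank F (LinearMap.range r) = finrank F D := LinearMap.finrank_range_of_inj hr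
    have hco : annih B.flip (⊤ : Submodule F D) = (LinearMap.range r).dualCoannihilator := by
      ext w
      simp only [mem_annih, Submodule.mem_dualCoannihilator, Submodule.mem_top, forall_true_left]
      constructor
      · rintro h _ ⟨y, rfl⟩
        simpa [r] using h y
      · intro h y
        simpa [r] using h (r y) ⟨y, rfl⟩
    have := Subspace.finrank_add_finrank_dualCoannihilator_eq (LinearMap.range r)
    rw [hco, ← himg, add_comm]
    exact this
  have h5 := Submodule.finrank_mono h3
  omega

end Recip

section Selmer

variable {H H' P P' : Type*} [AddCommGroup H] [Module F H] [AddCommGroup H'] [Module F H']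
  [AddCommGroup P] [Module F P] [AddCommGroup P'] [Module F P']
  [FiniteDimensional F H] [FiniteDimensional F H'] [FiniteDimensional F P]
  [FiniteDimensional F P']

/-- `dim λ⁻¹(L) = dim ker λ + dim (range λ ⊓ L)`. -/
lemma finrank_comap_eq (lam : H →ₗ[F] P) (L : Submodule F P) :
    finrank F ↥(L.comap lam) =
      finrank F (LinearMap.ker lam) + finrank F ↥(LinearMap.range lam ⊓ L) := by
  -- restrict `lam` to the comap
  let g : ↥(L.comap lam) →ₗ[F] P := lam.comp (L.comap lam).subtype
  have h1 := LinearMap.finrank_range_add_finrank_ker g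
  have hr : LinearMap.range g = LinearMap.range lam ⊓ L := by
    ext x
    constructor
    · rintro ⟨⟨h, hh⟩, rfl⟩
      exact ⟨⟨h, rfl⟩, hh⟩
    · rintro ⟨⟨h, rfl⟩, hL⟩
      exact ⟨⟨h, hL⟩, rfl⟩
  have hk : finrank F (LinearMap.ker g) = finrank F (LinearMap.ker lam) := by
    apply LinearEquiv.finrank_eq
    refine LinearEquiv.ofBijective
      ({ toFun := fun x => ⟨x.1.1, LinearMap.mem_ker.2 (LinearMap.mem_ker.1 x.2)⟩
         map_add' := fun _ _ => rfl
         map_smul' := fun _ _ => rfl } : LinearMap.ker g →ₗ[F] LinearMap.ker lam) ⟨?_, ?_⟩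
    · intro a b hab
      have h : (a.1.1 : H) = b.1.1 := congrArg (fun z : LinearMap.ker lam => (z : H)) hab
      exact Subtype.ext (Subtype.ext h)
    · intro y
      have hy : lam y.1 = 0 := y.2
      refine ⟨⟨⟨y.1, ?_⟩, ?_⟩, rfl⟩
      · simp [Submodule.mem_comap, hy]
      · simp [g, hy]
  rw [hr] at h1
  omega

/-- (II) SELMER ≤ DUAL SELMER + c.  `lam : H → P`, `lam' : H' → P'` the two localisation maps,
`β` the sum of the local pairings, `L ⊆ P` the local conditions.  From the HARD inclusion of middle
exactness (`hME`) and ONE numerical inequality (`hnum`). -/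
theorem selmer_le_dualSelmer (lam : H →ₗ[F] P) (lam' : H' →ₗ[F] P') (β : P →ₗ[F] P' →ₗ[F] F)
    (L : Submodule F P) (c : ℕ)
    (hME : annih β (LinearMap.range lam) ≤ LinearMap.range lam')
    (hnum : finrank F H + finrank F L ≤ finrank F (LinearMap.ker lam') + finrank F P' + c) :
    finrank F ↥(L.comap lam) ≤ finrank F ↥((annih β L).comap lam') + c := by
  have h1 := finrank_comap_eq lam L
  have h2 := finrank_comap_eq lam' (annih β L)
  have h3 := finrank_annih_inf_ge β (LinearMap.range lam) L (LinearMap.range lam') hME
  have h4 := LinearMap.finrank_range_add_finrank_ker lam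
  omega

end Selmer

end Fermat.Agent.S56.TW.Spine
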