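/-
PROJECT T (S56), block (a1-I) = S56/TW (helper21): the LOCAL COUNT at a Taylor–Wiles prime,

  `card (Z1 (Dq q) M ⧸ Z1unr q M) ≤ card (M^{D_q})`        (`card_quot_Z1unr_le`)

for a module `M` on which `I_q` acts trivially, from ONE tame input `TameInput` (discharged in
`S56/TW/LocalTame.lean` from `S56/Tame/Wild.lean`): for every level there is `τ0 ∈ I_q` such that
every `D_q`-equivariant, level-constant homomorphism `f : I_q → M` has `f τ0 ∈ M^{D_q}` and is
determined by `f τ0`.  No Euler characteristic, no duality.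
-/
import Fermat.Agent.S56.Coh.Lemmas

set_option autoImplicit false

namespace Fermat.Agent.S56.TW.LocalCount

open CategoryTheory groupCohomology
open Fermat.Agent.CFT.LC Fermat.Agent.CFT.Bridge Fermat.Agent.S56.Coh

variable {k : Type} [CommRing k] (q : ℕ) [Fact q.Prime] (M : Rep.{0} k GQ)

/-- The tame input at `q` for the coefficient module `M`. -/
def TameInput : Prop :=
  ∀ V ∈ levelsAll.sets, ∃ τ0 : ↥(Dq q), (τ0 : GQ) ∈ Iq q ∧ ∀ f : ↥(Dq q) → M,
    (∀ s t : ↥(Dq q), (s : GQ) ∈ Iq q → (t : GQ) ∈ Iq q → f (s * t) = f s + f t) →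
    (∀ s u : ↥(Dq q), (s : GQ) ∈ Iq q → (u : GQ) ∈ Iq q → (u : GQ) ∈ V → f (s * u) = f s) →
    (∀ g s : ↥(Dq q), (s : GQ) ∈ Iq q → f (g * s * g⁻¹) = M.ρ g (f s)) →
    (∀ g : ↥(Dq q), M.ρ g (f τ0) = f τ0) ∧
      (f τ0 = 0 → ∀ s : ↥(Dq q), (s : GQ) ∈ Iq q → f s = 0)

variable {q M}

section Cocycle

variable (hunr : ∀ s ∈ Iq q, ∀ m : M, M.ρ s m = m)
include hunr

/-- A cocycle on `D_q` is additive on `I_q` when `I_q` acts trivially. -/
lemma cocycle_add {c : ↥(Dq q) → resRep (Dq q) M} (hc : c ∈ Z1 (Dq q) M) (s t : ↥(Dq q))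
    (hs : (s : GQ) ∈ Iq q) : c (s * t) = c s + c t := by
  have h := ((mem_Z1_iff (Dq q) c).1 hc).1 s t
  rw [h, hunr s hs, add_comm]

/-- `c 1 = 0`. -/
lemma cocycle_one {c : ↥(Dq q) → resRep (Dq q) M} (hc : c ∈ Z1 (Dq q) M) : c 1 = 0 := by
  have h := ((mem_Z1_iff (Dq q) c).1 hc).1 1 1
  rw [mul_one, OneMemClass.coe_one, map_one, Module.End.one_apply] at h
  exact left_eq_add.mp h |>.symm ▸ rfl

/-- Conjugation equivariance of a cocycle on inertia. -/
lemma cocycle_conj {c : ↥(Dq q) → resRep (Dq q) M} (hc : c ∈ Z1 (Dq q) M) (g s : ↥(Dq q))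
    (hs : (s : GQ) ∈ Iq q) : c (g * s * g⁻¹) = M.ρ g (c s) := by
  have hco := ((mem_Z1_iff (Dq q) c).1 hc).1
  have h1 : c (g * s * g⁻¹) = M.ρ (g : GQ) (c (s * g⁻¹)) + c g := by
    rw [mul_assoc]; exact hco g (s * g⁻¹)
  have h2 : c (s * g⁻¹) = c s + c g⁻¹ := cocycle_add hunr hc s g⁻¹ hs
  have h3 : c (g * g⁻¹) = M.ρ (g : GQ) (c g⁻¹) + c g := hco g g⁻¹
  rw [mul_inv_cancel, cocycle_one hunr hc] at h3
  rw [h1, h2, map_add, add_assoc, ← h3, add_zero]

end Cocycle

/-- A type all of whose finite subsets have at most `n` elements is finite with at most `n`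
elements. -/
lemma finite_and_card_le_of_forall_finset {α : Type*} (n : ℕ)
    (h : ∀ s : Finset α, s.card ≤ n) : Finite α ∧ Nat.card α ≤ n := by
  have hfin : Finite α := by
    by_contra hinf
    rw [not_finite_iff_infinite] at hinf
    obtain ⟨s, hs⟩ := Infinite.exists_subset_card_eq α (n + 1)
    have := h s
    omega
  refine ⟨hfin, ?_⟩
  haveI := Fintype.ofFinite α
  rw [Nat.card_eq_fintype_card, ← Finset.card_univ]
  exact h _

/-- A common level for finitely many local cocycles. -/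
lemma exists_common_level {ι : Type*} (s : Finset ι) (c : ι → ↥(Dq q) → resRep (Dq q) M)
    (hc : ∀ i ∈ s, c i ∈ Z1 (Dq q) M) :
    ∃ V ∈ levelsAll.sets, ∀ i ∈ s, ∀ g u : ↥(Dq q), (u : GQ) ∈ V → c i (g * u) = c i g := by
  classical
  induction s using Finset.induction_on with
  | empty =>
    obtain ⟨V, hV⟩ := levelsAll.nonempty
    exact ⟨V, hV, fun i hi => absurd hi (Finset.notMem_empty i)⟩
  | insert a s ha ih =>
    obtain ⟨V, hV, hVs⟩ := ih fun i hi => hc i (Finset.mem_insert_of_mem hi)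
    obtain ⟨U', ⟨U, hU, rfl⟩, h1, -⟩ :=
      ((mem_Z1_iff (Dq q) (c a)).1 (hc a (Finset.mem_insert_self a s))).2
    obtain ⟨W, hW, hWle⟩ := levelsAll.directed V hV U hU
    refine ⟨W, hW, fun i hi g u hu => ?_⟩
    rcases Finset.mem_insert.1 hi with rfl | hi
    · exact h1 g u (hWle hu).2
    · exact hVs i hi g u (hWle hu).1

variable (q M) in
/-- **The local count at a Taylor–Wiles prime**: if `I_q` acts trivially on `M`, the quotient of the
local cocycles by the unramified ones is finite, of cardinality at most that of `M^{D_q}`. -/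
theorem card_quot_Z1unr_le (hunr : ∀ s ∈ Iq q, ∀ m : M, M.ρ s m = m) (hT : TameInput q M)
    [Finite (Fix q M)] :
    Finite (↥(Z1 (Dq q) M) ⧸ (Z1unr q M).comap (Z1 (Dq q) M).subtype) ∧
      Nat.card (↥(Z1 (Dq q) M) ⧸ (Z1unr q M).comap (Z1 (Dq q) M).subtype) ≤
        Nat.card (Fix q M) := by
  classical
  apply finite_and_card_le_of_forall_finset
  intro s
  -- representatives
  let rep : (↥(Z1 (Dq q) M) ⧸ (Z1unr q M).comap (Z1 (Dq q) M).subtype) → ↥(Z1 (Dq q) M) :=
    fun x => Quotient.out x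
  have hrep : ∀ x, Submodule.Quotient.mk (rep x) = x := fun x => Quotient.out_eq x
  obtain ⟨V, hV, hVs⟩ := exists_common_level s (fun x => (rep x).1) fun x _ => (rep x).2
  obtain ⟨τ0, hτ0, hτ⟩ := hT V hV
  -- the three properties for a cocycle that is `V`-constant
  have hprops : ∀ x ∈ s, ∀ y ∈ s,
      let f : ↥(Dq q) → M := fun g => (rep x).1 g - (rep y).1 g
      (∀ g : ↥(Dq q), M.ρ g (f τ0) = f τ0) ∧
        (f τ0 = 0 → ∀ t : ↥(Dq q), (t : GQ) ∈ Iq q → f t = 0) := by
    intro x hx y hy f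
    refine hτ f ?_ ?_ ?_
    · intro a b ha _
      simp only [f]
      rw [cocycle_add hunr (rep x).2 a b ha, cocycle_add hunr (rep y).2 a b ha]
      abel
    · intro a u _ _ hu
      simp only [f]
      rw [hVs x hx a u hu, hVs y hy a u hu]
    · intro g a ha
      simp only [f]
      rw [cocycle_conj hunr (rep x).2 g a ha, cocycle_conj hunr (rep y).2 g a ha, map_sub]
  -- the evaluation map into the invariants
  have hfixed : ∀ x ∈ s, ∀ g : ↥(Dq q), M.ρ g ((rep x).1 τ0) = (rep x).1 τ0 := by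
    intro x hx g
    -- apply the tame input to the single cocycle `rep x` (difference with itself is useless), so
    -- use the three properties directly
    have := (hτ (fun g => (rep x).1 g) ?_ ?_ ?_).1 g
    · exact this
    · intro a b ha _
      exact cocycle_add hunr (rep x).2 a b ha
    · intro a u _ _ hu
      exact hVs x hx a u hu
    · intro g a ha
      exact cocycle_conj hunr (rep x).2 g a ha
  let ev : {x // x ∈ s} → Fix q M := fun x => ⟨(rep x.1).1 τ0, hfixed x.1 x.2⟩
  have hev : Function.Injective ev := by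
    rintro ⟨x, hx⟩ ⟨y, hy⟩ hxy
    have h0 : (rep x).1 τ0 - (rep y).1 τ0 = 0 := by
      have := congrArg Subtype.val hxy
      exact sub_eq_zero.2 this
    have hvan := (hprops x hx y hy).2 h0
    -- the difference is unramified
    have hmem : rep x - rep y ∈ (Z1unr q M).comap (Z1 (Dq q) M).subtype := by
      refine ⟨Submodule.sub_mem _ (rep x).2 (rep y).2, 0, fun t ht => ?_⟩
      have := hvan t ht
      simp only [map_zero, sub_zero]
      exact this
    apply Subtype.ext
    have hxy' : (Submodule.Quotient.mk (rep x) :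
        ↥(Z1 (Dq q) M) ⧸ (Z1unr q M).comap (Z1 (Dq q) M).subtype) =
        Submodule.Quotient.mk (rep y) := (Submodule.Quotient.eq _).2 hmem
    calc x = Submodule.Quotient.mk (rep x) := (hrep x).symm
      _ = Submodule.Quotient.mk (rep y) := hxy'
      _ = y := hrep y
  haveI : Fintype (Fix q M) := Fintype.ofFinite _
  calc s.card = Fintype.card {x // x ∈ s} := (Fintype.card_coe s).symm
    _ ≤ Fintype.card (Fix q M) := Fintype.card_le_of_injective ev hev
    _ = Nat.card (Fix q M) := (Nat.card_eq_fintype_card).symm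

end Fermat.Agent.S56.TW.LocalCount
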