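/-
PROJECT T (S56), block (a1-I) = S56/TW (helper21): THE TAME INPUT at a Taylor–Wiles prime,
from helper24's shared tame-inertia leaf `S56/Tame/Global.lean`:

  `tameInput q M hp hdvd hM : TameInput q M`     for `p ∣ q - 1` and `p • m = 0` on `M`.

For a level `V = Gal(ℚ̄/F)`, `F/ℚ` finite Galois, the element `τ0` is helper24's uniform generator
of the `p`-part of the tame inertia at the level `F`; a `D_q`-equivariant, `V`-constant
homomorphism `f : I_q → M` is a homomorphism into a group of exponent `p`, so it is determined by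
`f τ0` (`exists_generator_inertia_uniform`) and `f τ0` is `D_q`-invariant (`map_conj_eq_self`).
-/
import Fermat.Agent.S56.TW.LocalCount
import Fermat.Agent.S56.Tame.Global

set_option autoImplicit false

namespace Fermat.Agent.S56.TW.LocalTame

open CategoryTheory
open Fermat.Agent.CFT.LC Fermat.Agent.CFT.Bridge Fermat.Agent.CFT.LocalBridge
open Fermat.Agent.S56.Coh Fermat.Agent.S56.TW.LocalCount Fermat.Agent.S56.Tame

variable {k : Type} [CommRing k] (q : ℕ) [Fact q.Prime] (M : Rep.{0} k GQ)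

/-- **The tame input at a Taylor–Wiles prime.** -/
theorem tameInput {p : ℕ} (hp : p.Prime) (hdvd : p ∣ q - 1) (hM : ∀ m : M, p • m = 0) :
    TameInput q M := by
  intro V hV
  obtain ⟨hVn, F, hFfin, rfl⟩ := hV
  haveI : FiniteDimensional ℚ F := hFfin
  haveI : IsGalois ℚ F := (InfiniteGalois.normal_iff_isGalois F).1 hVn
  have hq : q.Prime := Fact.out
  have hA : (padicPlace q).LiesOverPrime q := liesOverPrime_padicPlace q
  have hpq : p ≠ q := by
    intro h
    have h1 : q ≤ q - 1 := Nat.le_of_dvd (Nat.sub_pos_of_lt hq.one_lt) (h ▸ hdvd)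
    have := hq.one_lt
    omega
  obtain ⟨τ, hτ⟩ := exists_generator_inertia_uniform.{0, 0} F hq hA hp hpq
  refine ⟨⟨τ.1, Iq_le_Dq q τ.2⟩, τ.2, fun f hadd hconst hconj => ?_⟩
  have hf1 : f 1 = 0 := by
    have h := hadd 1 1 (Subgroup.one_mem _) (Subgroup.one_mem _)
    rw [mul_one] at h
    exact left_eq_add.mp h
  -- `f` on inertia as a homomorphism into a group of exponent `p`
  let f' : ↥((padicPlace q).inertiaSubgroupIn ℚ) →* Multiplicative M :=
    { toFun := fun σ => Multiplicative.ofAdd (f ⟨σ.1, Iq_le_Dq q σ.2⟩)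
      map_one' := by
        change Multiplicative.ofAdd (f 1) = 1
        rw [hf1]; rfl
      map_mul' := fun σ σ' => by
        change Multiplicative.ofAdd (f (⟨σ.1, Iq_le_Dq q σ.2⟩ * ⟨σ'.1, Iq_le_Dq q σ'.2⟩)) = _
        rw [hadd ⟨σ.1, Iq_le_Dq q σ.2⟩ ⟨σ'.1, Iq_le_Dq q σ'.2⟩ σ.2 σ'.2]
        rfl }
  have hf' : ∀ σ, f' σ = Multiplicative.ofAdd (f ⟨σ.1, Iq_le_Dq q σ.2⟩) := fun σ => rfl
  have hF : ∀ σ : ↥((padicPlace q).inertiaSubgroupIn ℚ), (σ : GQ) ∈ F.fixingSubgroup →
      f' σ = 1 := by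
    intro σ hσ
    have h := hconst 1 ⟨σ.1, Iq_le_Dq q σ.2⟩ (Subgroup.one_mem _) σ.2 hσ
    rw [one_mul, hf1] at h
    rw [hf', h]
    rfl
  have hexp : ∀ x : Multiplicative M, x ^ p = 1 := by
    intro x
    change Multiplicative.ofAdd (p • Multiplicative.toAdd x) = 1
    rw [hM]
    rfl
  constructor
  · intro g
    have h1 := map_conj_eq_self F hq hA hp hdvd f' hF hexp g.2 τ
    have h2 := hconj g ⟨τ.1, Iq_le_Dq q τ.2⟩ τ.2
    rw [← h2]
    exact Multiplicative.ofAdd.injective h1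
  · intro h0 s hs
    obtain ⟨m, hm⟩ := hτ (Multiplicative M) f' hF (isPGroup_of_forall_pow_eq_one hexp _) ⟨s.1, hs⟩
    have h1 : f' τ = 1 := by
      rw [hf', h0]; rfl
    rw [h1, one_pow] at hm
    exact Multiplicative.ofAdd.injective hm

end Fermat.Agent.S56.TW.LocalTame
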