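/-
PROJECT T (S56), block (a1-I) = S56/TW (helper21): the Taylor–Wiles step of `TW/Spine.lean` in the
form consumed by `TW/Step.lean`:

* `finrank_add_le_of_recip_ker` : the step (I) with the right kernel of the pairing as error term;
* `card_mul_le_of_recip`        : the same for finite abelian groups killed by `p`, additive maps and
                                   a `ZMod p`-valued biadditive pairing, by CARDINALITY.
-/
import Mathlib

set_option autoImplicit false

namespace Fermat.Agent.S56.TW.SpineCard

open Module

section Lin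

variable {F : Type*} [Field F] {T W D : Type*} [AddCommGroup T] [Module F T] [AddCommGroup W]
  [Module F W] [AddCommGroup D] [Module F D] [FiniteDimensional F T] [FiniteDimensional F W]
  [FiniteDimensional F D]

/-- Step (I) with error term: `dim T + dim D ≤ dim ker φ + dim W + dim (right kernel of B)`. -/
theorem finrank_add_le_of_recip_ker (φ : T →ₗ[F] W) (B : W →ₗ[F] D →ₗ[F] F)
    (hrec : ∀ x y, B (φ x) y = 0) :
    finrank F T + finrank F D ≤
      finrank F (LinearMap.ker φ) + finrank F W + finrank F (LinearMap.ker B.flip) := by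
  set r : D →ₗ[F] (Module.Dual F W) := B.flip with hr
  have h1 := LinearMap.finrank_range_add_finrank_ker φ
  have h2 := LinearMap.finrank_range_add_finrank_ker r
  have h3 := Subspace.finrank_add_finrank_dualCoannihilator_eq (LinearMap.range r)
  have h4 : LinearMap.range φ ≤ (LinearMap.range r).dualCoannihilator := by
    rintro _ ⟨x, rfl⟩
    rw [Submodule.mem_dualCoannihilator]
    rintro _ ⟨y, rfl⟩
    simpa [r] using hrec x y
  have h5 := Submodule.finrank_mono h4
  omega

end Lin

section Card

variable (p : ℕ) [Fact p.Prime] {T W D : Type*} [AddCommGroup T] [AddCommGroup W]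
  [AddCommGroup D] [Finite T] [Finite W] [Finite D]

/-- Auxiliary form of `card_mul_le_of_recip` with `ZMod p`-module structures as instances. -/
theorem card_mul_le_of_recip_aux [Module (ZMod p) T] [Module (ZMod p) W] [Module (ZMod p) D]
    (φ : T →+ W) (B : W →+ D →+ ZMod p) (hrec : ∀ x y, B (φ x) y = 0) :
    Nat.card T * Nat.card D ≤
      Nat.card φ.ker * Nat.card W * Nat.card {y : D // ∀ w, B w y = 0} := by
  let φ' : T →ₗ[ZMod p] W := φ.toZModLinearMap p
  have hB1 : ∀ (w w' : W) (y : D), B (w + w') y = B w y + B w' y := fun w w' y => by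
    rw [map_add, AddMonoidHom.add_apply]
  have hB2 : ∀ (c : ZMod p) (w : W) (y : D), B (c • w) y = c • B w y := fun c w y =>
    ZMod.map_smul (B.flip y) c w
  have hB3 : ∀ (w : W) (y y' : D), B w (y + y') = B w y + B w y' := fun w y y' => map_add _ _ _
  have hB4 : ∀ (c : ZMod p) (w : W) (y : D), B w (c • y) = c • B w y := fun c w y =>
    ZMod.map_smul (B w) c y
  let B' : W →ₗ[ZMod p] D →ₗ[ZMod p] ZMod p :=
    LinearMap.mk₂ (ZMod p) (fun (w : W) (y : D) => (B w y : ZMod p)) hB1 hB2 hB3 hB4
  have hmain := finrank_add_le_of_recip_ker φ' B' (fun x y => hrec x y)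
  have hcT : Nat.card T = p ^ finrank (ZMod p) T := by
    rw [Module.natCard_eq_pow_finrank (K := ZMod p), Nat.card_zmod]
  have hcW : Nat.card W = p ^ finrank (ZMod p) W := by
    rw [Module.natCard_eq_pow_finrank (K := ZMod p), Nat.card_zmod]
  have hcD : Nat.card D = p ^ finrank (ZMod p) D := by
    rw [Module.natCard_eq_pow_finrank (K := ZMod p), Nat.card_zmod]
  have hck : Nat.card φ.ker = p ^ finrank (ZMod p) (LinearMap.ker φ') := by
    have h := Module.natCard_eq_pow_finrank (K := ZMod p) (V := LinearMap.ker φ')
    rw [Nat.card_zmod] at h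
    rw [← h]
    exact Nat.card_congr (Equiv.refl _)
  have hcr : Nat.card {y : D // ∀ w, B w y = 0} =
      p ^ finrank (ZMod p) (LinearMap.ker B'.flip) := by
    have h := Module.natCard_eq_pow_finrank (K := ZMod p) (V := LinearMap.ker B'.flip)
    rw [Nat.card_zmod] at h
    rw [← h]
    refine Nat.card_congr (Equiv.subtypeEquivRight fun y => ?_)
    rw [LinearMap.mem_ker]
    constructor
    · intro h
      ext w
      simpa [B'] using h w
    · intro h w
      have := congrArg (fun f => f w) h
      simpa [B'] using this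
  rw [hcT, hcW, hcD, hck, hcr, ← pow_add, ← pow_add, ← pow_add]
  exact Nat.pow_le_pow_right (Fact.out : p.Prime).pos hmain

/-- Step (I) by cardinality, for finite abelian groups killed by `p`. -/
theorem card_mul_le_of_recip (hT : ∀ x : T, p • x = 0) (hW : ∀ x : W, p • x = 0)
    (hD : ∀ x : D, p • x = 0) (φ : T →+ W) (B : W →+ D →+ ZMod p)
    (hrec : ∀ x y, B (φ x) y = 0) :
    Nat.card T * Nat.card D ≤
      Nat.card φ.ker * Nat.card W * Nat.card {y : D // ∀ w, B w y = 0} :=
  @card_mul_le_of_recip_aux p _ T W D _ _ _ _ _ _ (AddCommGroup.zmodModule hT)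
    (AddCommGroup.zmodModule hW) (AddCommGroup.zmodModule hD) φ B hrec

end Card

end Fermat.Agent.S56.TW.SpineCard
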