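/-
PROJECT T (S56), block (a1-I) = S56/TW (helper21): THE TAYLOR–WILES STEP for the local pairing
interface `Coh/LocPairing.LocPairing` (reciprocity only for sets of primes containing `p` and the
ramification of `M`, `M'`; helper23 #4047 (4)).  This file supersedes the part of `TW/Step.lean`
that depends on `Coh/Pairing.LocalPairing`; it reuses `IsTWPrime`, `TZ`, `mem_TZ_iff`, `TZ_mono`,
`TZ_empty`, `B1g_le_TZ` from there.

  `card Sel(Smin ∪ Q, Lq free at Q) * card Sel(Smin, Lq^⊥) ≤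
      card Sel(Smin, Lq) * (card k) ^ #Q * card D_Q`                    (`card_step`)

for `p ∈ Smin`, `M`, `M'` unramified outside `Smin`, and `Q` a set of Taylor–Wiles primes disjoint
from `Smin`; `D_Q` = the classes of `Sel(Smin, Lq^⊥)` that are locally trivial at all `q ∈ Q`.
-/
import Fermat.Agent.S56.Coh.LocPairing
import Fermat.Agent.S56.TW.Step

set_option autoImplicit false

namespace Fermat.Agent.S56.TW.StepS

open CategoryTheory groupCohomology
open Fermat.Agent.CFT.LC Fermat.Agent.CFT.Bridge Fermat.Agent.S56.Coh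
open Fermat.Agent.S56.TW.LocalCount Fermat.Agent.S56.TW.SpineCard Fermat.Agent.S56.TW.Step

variable {k : Type} [Field k] {p : ℕ} {M M' : Rep.{0} k GQ}

/-- The cocycles of `D_Q`: Selmer cocycles for `Lq^⊥` at `Smin` that are locally coboundaries at
all primes of `Q`. -/
noncomputable def DZ (LP : LocPairing p M M') (Smin Q : Finset ℕ) (Lq : LocFam M) :
    Submodule k (GQ → M') where
  carrier := {y | y ∈ SelZ Smin (LocCond.ofLocal (LP.perp Lq)) ∧
    ∀ (q : ℕ) [Fact q.Prime], q ∈ Q → resFun (Dq q) y ∈ B1 (Dq q) M'}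
  add_mem' := by
    rintro y y' ⟨h, hb⟩ ⟨h', hb'⟩
    refine ⟨Submodule.add_mem _ h h', fun q _ hq => ?_⟩
    change resFun (Dq q) y + resFun (Dq q) y' ∈ B1 (Dq q) M'
    exact Submodule.add_mem _ (hb q hq) (hb' q hq)
  zero_mem' := by
    refine ⟨Submodule.zero_mem _, fun q _ _ => ?_⟩
    change (0 : ↥(Dq q) → resRep (Dq q) M') ∈ B1 (Dq q) M'
    exact Submodule.zero_mem _
  smul_mem' := by
    rintro r y ⟨h, hb⟩
    refine ⟨Submodule.smul_mem _ r h, fun q _ hq => ?_⟩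
    change r • resFun (Dq q) y ∈ B1 (Dq q) M'
    exact Submodule.smul_mem _ r (hb q hq)

lemma mem_DZ_iff {LP : LocPairing p M M'} {Smin Q : Finset ℕ} {Lq : LocFam M} {y : GQ → M'} :
    y ∈ DZ LP Smin Q Lq ↔ y ∈ SelZ Smin (LocCond.ofLocal (LP.perp Lq)) ∧
      ∀ (q : ℕ) [Fact q.Prime], q ∈ Q → resFun (Dq q) y ∈ B1 (Dq q) M' := Iff.rfl

lemma DZ_le_SelZ (LP : LocPairing p M M') (Smin Q : Finset ℕ) (Lq : LocFam M) :
    DZ LP Smin Q Lq ≤ SelZ Smin (LocCond.ofLocal (LP.perp Lq)) := fun _ h => h.1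

lemma DZ_le_Z1g (LP : LocPairing p M M') (Smin Q : Finset ℕ) (Lq : LocFam M) :
    DZ LP Smin Q Lq ≤ Z1g M' := fun _ h => h.1.1

lemma DZ_anti (LP : LocPairing p M M') (Smin : Finset ℕ) {Q Q' : Finset ℕ} (h : Q ⊆ Q')
    (Lq : LocFam M) : DZ LP Smin Q' Lq ≤ DZ LP Smin Q Lq :=
  fun _ hy => ⟨hy.1, fun q _ hq => hy.2 q (h hq)⟩

lemma DZ_empty (LP : LocPairing p M M') (Smin : Finset ℕ) (Lq : LocFam M) :
    DZ LP Smin ∅ Lq = SelZ Smin (LocCond.ofLocal (LP.perp Lq)) := by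
  ext y
  rw [mem_DZ_iff]
  exact ⟨fun h => h.1, fun h => ⟨h, fun q _ hq => absurd hq (Finset.notMem_empty q)⟩⟩

/-- The group `D_Q` of classes. -/
abbrev DQ (LP : LocPairing p M M') (Smin Q : Finset ℕ) (Lq : LocFam M) : Type :=
  ↥(DZ LP Smin Q Lq) ⧸ (B1g M').comap (DZ LP Smin Q Lq).subtype

/-! ### The one-prime step -/

section OneStep

variable [Fact p.Prime] [CharP k p] [Finite M]

/-- **One Taylor–Wiles prime.** -/
theorem card_step_one (LP : LocPairing p M M') (Smin : Finset ℕ) (Lq : LocFam M)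
    (hSmin : ∀ q ∈ Smin, q.Prime) (Q : Finset ℕ) (hQ : ∀ q ∈ Q, q.Prime)
    (q0 : ℕ) [Fact q0.Prime] (hdisj : Disjoint Smin (insert q0 Q)) (hq0Q : q0 ∉ Q)
    (hTW : IsTWPrime p M M' q0) (hpS : p ∈ Smin)
    (hunr : ∀ (q : ℕ) [Fact q.Prime], q ∉ Smin →
      ∀ s ∈ Iq q, (∀ m : M, M.ρ s m = m) ∧ ∀ m : M', M'.ρ s m = m)
    [Finite ↥(TZ Smin (insert q0 Q) Lq)] [Finite ↥(DZ LP Smin Q Lq)] :
    Nat.card ↥(TZ Smin (insert q0 Q) Lq) * Nat.card ↥(DZ LP Smin Q Lq) ≤
      Nat.card ↥(TZ Smin Q Lq) * Nat.card k * Nat.card ↥(DZ LP Smin (insert q0 Q) Lq) := by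
  classical
  have hq0S : q0 ∉ Smin := fun h =>
    Finset.disjoint_left.1 hdisj h (Finset.mem_insert_self q0 Q)
  have hdisj' : Disjoint Smin Q :=
    Finset.disjoint_of_subset_right (Finset.subset_insert q0 Q) hdisj
  -- the local quotient and its count
  obtain ⟨hWfin, hWcard⟩ := card_quot_Z1unr_le q0 M hTW.unrM hTW.tame
  -- the maps
  let incT : ↥(TZ Smin (insert q0 Q) Lq) →ₗ[k] ↥(Z1g M) :=
    Submodule.inclusion (SelZ_le_Z1g _ _)
  let φl : ↥(TZ Smin (insert q0 Q) Lq) →ₗ[k]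
      (↥(Z1 (Dq q0) M) ⧸ (Z1unr q0 M).comap (Z1 (Dq q0) M).subtype) :=
    (Submodule.mkQ _).comp ((resZ (Dq q0) M).comp incT)
  let incD : ↥(DZ LP Smin Q Lq) →ₗ[k] ↥(Z1g M') := Submodule.inclusion (DZ_le_Z1g LP Smin Q Lq)
  let resD : ↥(DZ LP Smin Q Lq) →+ ↥(Z1 (Dq q0) M') :=
    ((resZ (Dq q0) M').comp incD).toAddMonoidHom
  let B0 : ↥(Z1 (Dq q0) M) →+ ↥(DZ LP Smin Q Lq) →+ ZMod p := (LP.pair q0).compl₂ resD
  have hB0 : ((Z1unr q0 M).comap (Z1 (Dq q0) M).subtype).toAddSubgroup ≤ B0.ker := by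
    intro w hw
    rw [AddMonoidHom.mem_ker]
    ext y
    change LP.pair q0 w (resD y) = 0
    refine LP.unr q0 hTW.ne hTW.unrM hTW.unrM' w (resD y) hw ?_
    have hy : IsUnramAt q0 y.1 := y.2.1.2.1 q0 hq0S
    exact (isUnramAt_iff_resFun_mem y.2.1.1).1 hy
  let B : (↥(Z1 (Dq q0) M) ⧸ (Z1unr q0 M).comap (Z1 (Dq q0) M).subtype) →+
      ↥(DZ LP Smin Q Lq) →+ ZMod p :=
    QuotientAddGroup.lift ((Z1unr q0 M).comap (Z1 (Dq q0) M).subtype).toAddSubgroup B0 hB0
  have hBmk : ∀ (w : ↥(Z1 (Dq q0) M)) (y : ↥(DZ LP Smin Q Lq)),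
      B (Submodule.Quotient.mk w) y = LP.pair q0 w (resD y) := fun w y => rfl
  -- reciprocity
  have hrec : ∀ (x : ↥(TZ Smin (insert q0 Q) Lq)) (y : ↥(DZ LP Smin Q Lq)),
      B (φl.toAddMonoidHom x) y = 0 := by
    intro x y
    have hx := (mem_TZ_iff hdisj).1 x.2
    change B (Submodule.Quotient.mk (resZ (Dq q0) M (incT x))) y = 0
    rw [hBmk]
    obtain ⟨u, hu⟩ := LP.recip (Smin ∪ insert q0 Q)
      (fun q hq => by
        rcases Finset.mem_union.1 hq with h | h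
        · exact hSmin q h
        · rcases Finset.mem_insert.1 h with rfl | h
          · exact Fact.out
          · exact hQ q h)
      (Finset.mem_union_left _ hpS)
      (fun q _ hq => hunr q fun h => hq (Finset.mem_union_left _ h))
    have hu := hu (incT x) (incD y)
      (fun q _ hq => by
        rw [Finset.mem_union, not_or] at hq
        exact ⟨hx.2.1 q hq.1 hq.2, y.2.1.2.1 q hq.1⟩)
    rw [Finset.sum_eq_single q0] at hu
    · rw [Units.mul_right_eq_zero, dif_pos (Fact.out : q0.Prime)] at hu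
      exact hu
    · intro q hq hne
      by_cases hqp : q.Prime
      · haveI : Fact q.Prime := ⟨hqp⟩
        rw [dif_pos hqp]
        rcases Finset.mem_union.1 hq with h | h
        · -- `q ∈ Smin`: orthogonality of `Lq q` and its annihilator
          have hyq := y.2.1.2.2 q h
          rw [mem_ofLocal_iff, LocPairing.mem_perp_iff] at hyq
          obtain ⟨hy1, hy2⟩ := hyq
          have h0 : LP.pair q (resZ (Dq q) M (incT x)) (resZ (Dq q) M' (incD y)) = 0 :=
            hy2 (resZ (Dq q) M (incT x)) (hx.2.2 q h)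
          rw [h0, mul_zero]
        · -- `q ∈ Q`: the restriction of `y` is a coboundary
          have hqQ : q ∈ Q := (Finset.mem_insert.1 h).resolve_left hne
          rw [LP.right_B1 q _ _ (y.2.2 q hqQ), mul_zero]
      · rw [dif_neg hqp, mul_zero]
    · intro h
      exact absurd (Finset.mem_union_right _ (Finset.mem_insert_self q0 Q)) h
  -- the counting lemma
  have hmain := card_mul_le_of_recip p
    (fun x : ↥(TZ Smin (insert q0 Q) Lq) => nsmul_eq_zero_of_charP k p x)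
    (fun x : (↥(Z1 (Dq q0) M) ⧸ (Z1unr q0 M).comap (Z1 (Dq q0) M).subtype) =>
      nsmul_eq_zero_of_charP k p x)
    (fun x : ↥(DZ LP Smin Q Lq) => nsmul_eq_zero_of_charP k p x)
    φl.toAddMonoidHom B hrec
  -- finiteness of the smaller spaces
  haveI hfinT : Finite ↥(TZ Smin Q Lq) :=
    Finite.of_injective (Submodule.inclusion (TZ_mono Lq hdisj (Finset.subset_insert q0 Q)))
      (Submodule.inclusion_injective _)
  haveI hfinD : Finite ↥(DZ LP Smin (insert q0 Q) Lq) :=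
    Finite.of_injective (Submodule.inclusion (DZ_anti LP Smin (Finset.subset_insert q0 Q) Lq))
      (Submodule.inclusion_injective _)
  -- (a) the kernel of `φ` consists of the cocycles unramified at `q0`
  have hker : Nat.card φl.toAddMonoidHom.ker ≤ Nat.card ↥(TZ Smin Q Lq) := by
    have hmem : ∀ x : ↥(φl.toAddMonoidHom.ker), x.1.1 ∈ TZ Smin Q Lq := by
      intro x
      have hx := (mem_TZ_iff hdisj).1 x.1.2
      have h0 : (Submodule.Quotient.mk (resZ (Dq q0) M (incT x.1)) :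
          ↥(Z1 (Dq q0) M) ⧸ (Z1unr q0 M).comap (Z1 (Dq q0) M).subtype) = 0 :=
        (AddMonoidHom.mem_ker).1 x.2
      rw [Submodule.Quotient.mk_eq_zero] at h0
      have h1 : IsUnramAt q0 x.1.1 := (isUnramAt_iff_resFun_mem hx.1).2 h0
      rw [mem_TZ_iff hdisj']
      refine ⟨hx.1, fun q _ hqS hqQ => ?_, hx.2.2⟩
      rcases eq_or_ne q q0 with rfl | hne
      · exact h1
      · exact hx.2.1 q hqS (by simp [hne, hqQ])
    refine Nat.card_le_card_of_injective (fun x => ⟨x.1.1, hmem x⟩) ?_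
    intro x y hxy
    have h := congrArg Subtype.val hxy
    exact Subtype.ext (Subtype.ext h)
  -- (c) the right kernel consists of cocycles that are coboundaries at `q0`
  have hrk : Nat.card {y : ↥(DZ LP Smin Q Lq) // ∀ w, B w y = 0} ≤
      Nat.card ↥(DZ LP Smin (insert q0 Q) Lq) := by
    have hmem : ∀ y : {y : ↥(DZ LP Smin Q Lq) // ∀ w, B w y = 0},
        y.1.1 ∈ DZ LP Smin (insert q0 Q) Lq := by
      intro y
      rw [mem_DZ_iff]
      refine ⟨y.1.2.1, fun q _ hq => ?_⟩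
      rcases Finset.mem_insert.1 hq with rfl | h
      · exact LP.nd q (resD y.1) fun x => by rw [← hBmk]; exact y.2 _
      · exact y.1.2.2 q h
    refine Nat.card_le_card_of_injective (fun y => ⟨y.1.1, hmem y⟩) ?_
    intro x y hxy
    have h := congrArg Subtype.val hxy
    exact Subtype.ext (Subtype.ext h)
  calc Nat.card ↥(TZ Smin (insert q0 Q) Lq) * Nat.card ↥(DZ LP Smin Q Lq)
      ≤ Nat.card φl.toAddMonoidHom.ker *
          Nat.card (↥(Z1 (Dq q0) M) ⧸ (Z1unr q0 M).comap (Z1 (Dq q0) M).subtype) *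
          Nat.card {y : ↥(DZ LP Smin Q Lq) // ∀ w, B w y = 0} := hmain
    _ ≤ Nat.card ↥(TZ Smin Q Lq) * Nat.card k * Nat.card ↥(DZ LP Smin (insert q0 Q) Lq) :=
        Nat.mul_le_mul (Nat.mul_le_mul hker (hWcard.trans hTW.fix)) hrk

end OneStep

/-! ### Induction over the set of Taylor–Wiles primes -/

section Induction

variable [Fact p.Prime] [CharP k p] [Finite M]

/-- The Taylor–Wiles step at the level of cocycles. -/
theorem cardZ_step (LP : LocPairing p M M') (Smin : Finset ℕ) (Lq : LocFam M)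
    (hSmin : ∀ q ∈ Smin, q.Prime) (Q : Finset ℕ) (hQ : ∀ q ∈ Q, q.Prime)
    (hdisj : Disjoint Smin Q) (hTW : ∀ (q : ℕ) [Fact q.Prime], q ∈ Q → IsTWPrime p M M' q)
    (hpS : p ∈ Smin)
    (hunr : ∀ (q : ℕ) [Fact q.Prime], q ∉ Smin →
      ∀ s ∈ Iq q, (∀ m : M, M.ρ s m = m) ∧ ∀ m : M', M'.ρ s m = m)
    [Finite ↥(TZ Smin Q Lq)] [Finite ↥(SelZ Smin (LocCond.ofLocal (LP.perp Lq)))] :
    Nat.card ↥(TZ Smin Q Lq) * Nat.card ↥(SelZ Smin (LocCond.ofLocal (LP.perp Lq))) ≤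
      Nat.card ↥(SelZ Smin (LocCond.ofLocal Lq)) * (Nat.card k) ^ Q.card *
        Nat.card ↥(DZ LP Smin Q Lq) := by
  classical
  have key : ∀ Q' : Finset ℕ, Q' ⊆ Q →
      Nat.card ↥(TZ Smin Q' Lq) * Nat.card ↥(SelZ Smin (LocCond.ofLocal (LP.perp Lq))) ≤
        Nat.card ↥(SelZ Smin (LocCond.ofLocal Lq)) * (Nat.card k) ^ Q'.card *
          Nat.card ↥(DZ LP Smin Q' Lq) := by
    intro Q'
    induction Q' using Finset.induction_on with
    | empty =>
      intro _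
      rw [TZ_empty, DZ_empty, Finset.card_empty, pow_zero, mul_one]
    | insert q0 Q' hq0 ih =>
      intro hsub
      have hsub' : Q' ⊆ Q := (Finset.insert_subset_iff.1 hsub).2
      have hq0Q : q0 ∈ Q := (Finset.insert_subset_iff.1 hsub).1
      haveI : Fact q0.Prime := ⟨hQ q0 hq0Q⟩
      have IH := ih hsub'
      haveI : Finite ↥(TZ Smin (insert q0 Q') Lq) :=
        Finite.of_injective (Submodule.inclusion (TZ_mono Lq hdisj hsub))
          (Submodule.inclusion_injective _)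
      haveI : Finite ↥(TZ Smin Q' Lq) :=
        Finite.of_injective (Submodule.inclusion (TZ_mono Lq hdisj hsub'))
          (Submodule.inclusion_injective _)
      haveI : Finite ↥(DZ LP Smin Q' Lq) :=
        Finite.of_injective (Submodule.inclusion (DZ_le_SelZ LP Smin Q' Lq))
          (Submodule.inclusion_injective _)
      have A := card_step_one LP Smin Lq hSmin Q' (fun q hq => hQ q (hsub' hq)) q0
        (Finset.disjoint_of_subset_right hsub hdisj) hq0 (hTW q0 hq0Q) hpS hunr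
      have ha : 0 < Nat.card ↥(TZ Smin Q' Lq) := Nat.card_pos
      have hd : 0 < Nat.card ↥(DZ LP Smin Q' Lq) := Nat.card_pos
      rw [Finset.card_insert_of_notMem hq0]
      refine Nat.le_of_mul_le_mul_right ?_ (Nat.mul_pos ha hd)
      calc Nat.card ↥(TZ Smin (insert q0 Q') Lq) *
              Nat.card ↥(SelZ Smin (LocCond.ofLocal (LP.perp Lq))) *
            (Nat.card ↥(TZ Smin Q' Lq) * Nat.card ↥(DZ LP Smin Q' Lq))
          = (Nat.card ↥(TZ Smin (insert q0 Q') Lq) * Nat.card ↥(DZ LP Smin Q' Lq)) *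
            (Nat.card ↥(TZ Smin Q' Lq) *
              Nat.card ↥(SelZ Smin (LocCond.ofLocal (LP.perp Lq)))) := by ring
        _ ≤ (Nat.card ↥(TZ Smin Q' Lq) * Nat.card k *
              Nat.card ↥(DZ LP Smin (insert q0 Q') Lq)) *
            (Nat.card ↥(SelZ Smin (LocCond.ofLocal Lq)) * (Nat.card k) ^ Q'.card *
              Nat.card ↥(DZ LP Smin Q' Lq)) := Nat.mul_le_mul A IH
        _ = Nat.card ↥(SelZ Smin (LocCond.ofLocal Lq)) * (Nat.card k) ^ (Q'.card + 1) *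
              Nat.card ↥(DZ LP Smin (insert q0 Q') Lq) *
            (Nat.card ↥(TZ Smin Q' Lq) * Nat.card ↥(DZ LP Smin Q' Lq)) := by ring
  exact key Q (Finset.Subset.refl Q)

end Induction

/-! ### The step for classes -/

section Classes

variable [Fact p.Prime] [CharP k p] [Finite M] [Finite M']

/-- `B1g M' ≤ DZ`. -/
lemma B1g_le_DZ (LP : LocPairing p M M') (Smin Q : Finset ℕ) (Lq : LocFam M) :
    B1g M' ≤ DZ LP Smin Q Lq := by
  intro c hc
  rw [mem_DZ_iff]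
  exact ⟨B1g_le_SelZ Smin (LP.perp Lq) (fun q _ _ => LP.B1_le_perp Lq q) hc,
    fun q _ _ => resFun_mem_B1 _ hc⟩

/-- **The Taylor–Wiles step** (chief post #3864 (3), inequality (a1-I)). -/
theorem card_step (LP : LocPairing p M M') (Smin Q : Finset ℕ)
    (hSmin : ∀ q ∈ Smin, q.Prime) (hQ : ∀ q ∈ Q, q.Prime) (hdisj : Disjoint Smin Q)
    (hTW : ∀ (q : ℕ) [Fact q.Prime], q ∈ Q → IsTWPrime p M M' q) (hpS : p ∈ Smin)
    (hunr : ∀ (q : ℕ) [Fact q.Prime], q ∉ Smin →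
      ∀ s ∈ Iq q, (∀ m : M, M.ρ s m = m) ∧ ∀ m : M', M'.ρ s m = m)
    (Lq : LocFam M) (hB1 : ∀ (q : ℕ) [Fact q.Prime], q ∈ Smin → B1 (Dq q) M ≤ Lq q)
    [Finite (Sel (Smin ∪ Q) (LocCond.ofLocal (freeAt Lq Q)))]
    [Finite (Sel Smin (LocCond.ofLocal (LP.perp Lq)))] :
    Nat.card (Sel (Smin ∪ Q) (LocCond.ofLocal (freeAt Lq Q))) *
        Nat.card (Sel Smin (LocCond.ofLocal (LP.perp Lq))) ≤
      Nat.card (Sel Smin (LocCond.ofLocal Lq)) * (Nat.card k) ^ Q.card *
        Nat.card (DQ LP Smin Q Lq) := by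
  haveI h1 : Finite ↥(TZ Smin Q Lq) := finite_of_finite_quot (TZ Smin Q Lq)
  haveI h2 : Finite ↥(SelZ Smin (LocCond.ofLocal (LP.perp Lq))) := finite_of_finite_quot _
  have hZ := cardZ_step LP Smin Lq hSmin Q hQ hdisj hTW hpS hunr
  have e1 := card_eq_of_B1g_le (TZ Smin Q Lq) (B1g_le_TZ Smin Q Lq hB1)
  have e2 := card_eq_of_B1g_le (SelZ Smin (LocCond.ofLocal (LP.perp Lq)))
    (B1g_le_SelZ Smin (LP.perp Lq) fun q _ _ => LP.B1_le_perp Lq q)
  have e3 := card_eq_of_B1g_le (SelZ Smin (LocCond.ofLocal Lq)) (B1g_le_SelZ Smin Lq hB1)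
  have e4 := card_eq_of_B1g_le (DZ LP Smin Q Lq) (B1g_le_DZ LP Smin Q Lq)
  haveI := finite_B1g (A := M)
  haveI := finite_B1g (A := M')
  have hb : 0 < Nat.card ↥(B1g M) := Nat.card_pos
  have hb' : 0 < Nat.card ↥(B1g M') := Nat.card_pos
  rw [e1, e2, e3, e4] at hZ
  refine Nat.le_of_mul_le_mul_right ?_ (Nat.mul_pos hb hb')
  calc Nat.card (Sel (Smin ∪ Q) (LocCond.ofLocal (freeAt Lq Q))) *
          Nat.card (Sel Smin (LocCond.ofLocal (LP.perp Lq))) *
        (Nat.card ↥(B1g M) * Nat.card ↥(B1g M'))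
      = Nat.card ↥(B1g M) * Nat.card (Sel (Smin ∪ Q) (LocCond.ofLocal (freeAt Lq Q))) *
        (Nat.card ↥(B1g M') * Nat.card (Sel Smin (LocCond.ofLocal (LP.perp Lq)))) := by ring
    _ ≤ Nat.card ↥(B1g M) * Nat.card (Sel Smin (LocCond.ofLocal Lq)) * (Nat.card k) ^ Q.card *
        (Nat.card ↥(B1g M') * Nat.card (DQ LP Smin Q Lq)) := hZ
    _ = Nat.card (Sel Smin (LocCond.ofLocal Lq)) * (Nat.card k) ^ Q.card *
          Nat.card (DQ LP Smin Q Lq) * (Nat.card ↥(B1g M) * Nat.card ↥(B1g M')) := by ring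

end Classes

end Fermat.Agent.S56.TW.StepS
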