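/-
PROJECT T (S56), block (a1-I) = S56/TW (helper21): THE TAYLOR–WILES PRIMES OF S56 SATISFY
`IsTWPrime` for `M = Mrep rbar = ad⁰ ρbar` and `M' = MrepTw rbar = ad⁰ ρbar (1)`, and `StepS.card_step`
in the language of helper18's `CocDefs`.

* `eq_zero_of_comm`      : a trace-zero `2 × 2` matrix commuting with a non-scalar matrix is
                           determined by one coordinate;
* `card_fix_le`          : `card (M^{D_q}) ≤ card k` when some `φ ∈ D_q` has `rbar φ` non-scalar;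
* `not_scalar_of_charpoly` : `charpoly = (X - α)(X - β)`, `α ≠ β`, implies non-scalar;
* `isTWPrime_Mrep`       : the five fields of `IsTWPrime`;
* `freeAt_LcFam`, `card_step_Mrep` : `card_step` for `Lq = LcFam rbar p Smin Pp`.
-/
import Fermat.Agent.S56.Coh.CocDefs
import Fermat.Agent.S56.TW.StepS
import Fermat.Agent.S56.TW.LocalTame

set_option autoImplicit false

namespace Fermat.Agent.S56.TW.TWPrime

open Matrix Polynomial
open Fermat.Agent.CFT.LC Fermat.Agent.CFT.Bridge Fermat.Agent.S56.Coh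
open Fermat.Agent.S56.Coh.CocDefs Fermat.Agent.S56.TW.LocalCount Fermat.Agent.S56.TW.Step
open Fermat.Agent.S56.TW.StepS
open Fermat.Agent.S56.TW.LocalTame

variable {k : Type} [Field k]

/-! ### the commutant of a non-scalar matrix in `sl2` -/

/-- `g` is not a scalar matrix. -/
def NotScalar (g : Matrix (Fin 2) (Fin 2) k) : Prop :=
  g 0 1 ≠ 0 ∨ g 1 0 ≠ 0 ∨ g 0 0 ≠ g 1 1

/-- The three equations for a trace-zero matrix commuting with `g`. -/
lemma comm_equations {g X : Matrix (Fin 2) (Fin 2) k} (hX : X.trace = 0)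
    (hc : g * X = X * g) :
    X 0 1 * g 1 0 = g 0 1 * X 1 0 ∧ 2 * g 0 1 * X 0 0 = (g 0 0 - g 1 1) * X 0 1 ∧
      (g 0 0 - g 1 1) * X 1 0 = 2 * g 1 0 * X 0 0 := by
  have h11 : X 1 1 = - X 0 0 := by
    rw [Matrix.trace_fin_two] at hX
    exact eq_neg_of_add_eq_zero_right hX
  have e00 := congrFun (congrFun hc 0) 0
  have e01 := congrFun (congrFun hc 0) 1
  have e10 := congrFun (congrFun hc 1) 0
  simp only [Matrix.mul_apply, Fin.sum_univ_two, h11] at e00 e01 e10
  refine ⟨?_, ?_, ?_⟩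
  · linear_combination (-1 : k) * e00
  · linear_combination (-1 : k) * e01
  · linear_combination (-1 : k) * e10

/-- The coordinate of a matrix singled out by the shape of `g`. -/
noncomputable def coord (g : Matrix (Fin 2) (Fin 2) k) (X : Matrix (Fin 2) (Fin 2) k) : k := by
  classical
  exact if g 0 1 ≠ 0 then X 0 1 else if g 1 0 ≠ 0 then X 1 0 else X 0 0

lemma coord_sub (g X Y : Matrix (Fin 2) (Fin 2) k) : coord g (X - Y) = coord g X - coord g Y := by
  unfold coord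
  split_ifs <;> rfl

/-- A trace-zero matrix commuting with a non-scalar matrix `g` whose `coord g` vanishes is zero. -/
lemma eq_zero_of_comm (h2 : (2 : k) ≠ 0) {g X : Matrix (Fin 2) (Fin 2) k} (hg : NotScalar g)
    (hX : X.trace = 0) (hc : g * X = X * g) (h0 : coord g X = 0) : X = 0 := by
  obtain ⟨e1, e2, e3⟩ := comm_equations hX hc
  have h11 : X 1 1 = - X 0 0 := by
    rw [Matrix.trace_fin_two] at hX
    exact eq_neg_of_add_eq_zero_right hX
  have key : X 0 0 = 0 ∧ X 0 1 = 0 ∧ X 1 0 = 0 := by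
    unfold coord at h0
    by_cases hb : g 0 1 ≠ 0
    · rw [if_pos hb] at h0
      rw [h0, zero_mul] at e1
      rw [h0, mul_zero] at e2
      have hz : X 1 0 = 0 := (mul_eq_zero.1 e1.symm).resolve_left hb
      have hx : X 0 0 = 0 := by
        rcases mul_eq_zero.1 e2 with h | h
        · exact absurd h (mul_ne_zero h2 hb)
        · exact h
      exact ⟨hx, h0, hz⟩
    · rw [if_neg hb] at h0
      by_cases hcz : g 1 0 ≠ 0
      · rw [if_pos hcz] at h0
        rw [h0, mul_zero] at e1 e3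
        have hy : X 0 1 = 0 := (mul_eq_zero.1 e1).resolve_right hcz
        have hx : X 0 0 = 0 := by
          rcases mul_eq_zero.1 e3.symm with h | h
          · exact absurd h (mul_ne_zero h2 hcz)
          · exact h
        exact ⟨hx, hy, h0⟩
      · rw [if_neg hcz] at h0
        have had : g 0 0 - g 1 1 ≠ 0 := by
          rcases hg with h | h | h
          · exact absurd h hb
          · exact absurd h hcz
          · exact sub_ne_zero.2 h
        rw [h0, mul_zero] at e2 e3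
        exact ⟨h0, (mul_eq_zero.1 e2.symm).resolve_left had, (mul_eq_zero.1 e3).resolve_left had⟩
  ext i j
  fin_cases i <;> fin_cases j
  · exact key.1
  · exact key.2.1
  · exact key.2.2
  · change X 1 1 = 0
    rw [h11, key.1, neg_zero]

/-- `charpoly g = (X - α)(X - β)` with `α ≠ β` forces `g` to be non-scalar. -/
lemma notScalar_of_charpoly {g : Matrix (Fin 2) (Fin 2) k} {α β : k} (hαβ : α ≠ β)
    (hchar : g.charpoly = (X - C α) * (X - C β)) : NotScalar g := by
  by_contra hns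
  unfold NotScalar at hns
  push Not at hns
  obtain ⟨hb, hc, hd⟩ := hns
  rw [Matrix.charpoly_fin_two] at hchar
  have h0 := congrArg (fun f => Polynomial.coeff f 0) hchar
  have h1 := congrArg (fun f => Polynomial.coeff f 1) hchar
  simp only [Matrix.trace_fin_two, Matrix.det_fin_two, hb, hc, hd] at h0 h1
  have e1 : (X ^ 2 - C (g 1 1 + g 1 1) * X + C (g 1 1 * g 1 1 - 0 * 0) : k[X]) =
      X ^ 2 - C (2 * g 1 1) * X + C (g 1 1 ^ 2) := by
    congr 2
    · rw [two_mul]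
    · ring_nf
  have e2 : ((X - C α) * (X - C β) : k[X]) = X ^ 2 - C (α + β) * X + C (α * β) := by
    rw [C_add, C_mul]; ring
  rw [e1, e2] at h0 h1
  simp only [coeff_add, coeff_sub, coeff_X_pow, coeff_C_mul, coeff_X_zero, coeff_X_one,
    coeff_C_zero, coeff_C_succ, mul_zero, mul_one, OfNat.ofNat_ne_zero, OfNat.zero_ne_ofNat,
    if_false, zero_sub, zero_add, add_zero, sub_zero, OfNat.one_ne_ofNat] at h0 h1
  have h3 : (α - β) ^ 2 = 0 := by
    have h1' : 2 * g 1 1 = α + β := neg_injective h1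
    have : (α - β) ^ 2 = (α + β) ^ 2 - 4 * (α * β) := by ring
    rw [this, ← h1', ← h0]
    ring
  exact hαβ (sub_eq_zero.1 ((pow_eq_zero_iff (two_ne_zero)).1 h3))

/-! ### the fields of `IsTWPrime` for `Mrep`, `MrepTw` -/

variable (rbar : GQ →* GL (Fin 2) k)

/-- An element of `Mrep rbar` fixed by `σ` commutes with `rbar σ`. -/
lemma comm_of_fixed (σ : GQ) (m : Mrep rbar) (h : (Mrep rbar).ρ σ m = m) :
    (rbar σ : Matrix (Fin 2) (Fin 2) k) * (m : sl2 k).1 =
      (m : sl2 k).1 * (rbar σ : Matrix (Fin 2) (Fin 2) k) := by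
  have h1 := Mrep_ρ_coe rbar σ m
  rw [h] at h1
  calc (rbar σ : Matrix (Fin 2) (Fin 2) k) * (m : sl2 k).1
      = (rbar σ : Matrix (Fin 2) (Fin 2) k) * (m : sl2 k).1 *
          ((((rbar σ)⁻¹ : GL (Fin 2) k) : Matrix (Fin 2) (Fin 2) k) *
            (rbar σ : Matrix (Fin 2) (Fin 2) k)) := by
        rw [← Units.val_mul, inv_mul_cancel, Units.val_one, Matrix.mul_one]
    _ = ((rbar σ : Matrix (Fin 2) (Fin 2) k) * (m : sl2 k).1 *
          (((rbar σ)⁻¹ : GL (Fin 2) k) : Matrix (Fin 2) (Fin 2) k)) *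
            (rbar σ : Matrix (Fin 2) (Fin 2) k) := by
        simp only [Matrix.mul_assoc]
    _ = (m : sl2 k).1 * (rbar σ : Matrix (Fin 2) (Fin 2) k) := by rw [← h1]

/-- **`card (M^{D_q}) ≤ card k`** as soon as some `φ ∈ D_q` has `rbar φ` non-scalar. -/
theorem card_fix_le [Finite k] (h2 : (2 : k) ≠ 0) (q : ℕ) [Fact q.Prime] (φ : GQ)
    (hφ : φ ∈ Dq q) (hns : NotScalar (rbar φ : Matrix (Fin 2) (Fin 2) k)) :
    Nat.card (Fix q (Mrep rbar)) ≤ Nat.card k := by
  refine Nat.card_le_card_of_injective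
    (fun m : Fix q (Mrep rbar) => coord (rbar φ : Matrix (Fin 2) (Fin 2) k) ((m.1 : sl2 k).1)) ?_
  intro m m' h
  have hc := comm_of_fixed rbar φ m.1 (m.2 ⟨φ, hφ⟩)
  have hc' := comm_of_fixed rbar φ m'.1 (m'.2 ⟨φ, hφ⟩)
  have ht : ((m.1 : sl2 k).1 - (m'.1 : sl2 k).1).trace = 0 := by
    rw [Matrix.trace_sub, mem_sl2.1 (m.1 : sl2 k).2, mem_sl2.1 (m'.1 : sl2 k).2, sub_zero]
  have hcomm : (rbar φ : Matrix (Fin 2) (Fin 2) k) * ((m.1 : sl2 k).1 - (m'.1 : sl2 k).1) =
      ((m.1 : sl2 k).1 - (m'.1 : sl2 k).1) * (rbar φ : Matrix (Fin 2) (Fin 2) k) := by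
    rw [Matrix.mul_sub, Matrix.sub_mul, hc, hc']
  have h0 : coord (rbar φ : Matrix (Fin 2) (Fin 2) k) ((m.1 : sl2 k).1 - (m'.1 : sl2 k).1) = 0 := by
    rw [coord_sub]
    exact sub_eq_zero.2 h
  have hz := eq_zero_of_comm h2 hns ht hcomm h0
  exact Subtype.ext (Subtype.ext (sub_eq_zero.1 hz))

/-- Where `rbar` is trivial, `Mrep` and `MrepTw` are fixed pointwise. -/
lemma unr_of_rbar_eq_one {s : GQ} (hs : rbar s = 1) :
    (∀ m : Mrep rbar, (Mrep rbar).ρ s m = m) ∧ ∀ m : MrepTw rbar, (MrepTw rbar).ρ s m = m := by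
  refine ⟨fun m => ?_, fun m => ?_⟩
  · apply Subtype.ext
    rw [Mrep_ρ_coe, hs, inv_one, Units.val_one, Matrix.one_mul, Matrix.mul_one]
  · apply Subtype.ext
    rw [MrepTw_ρ_coe, hs, inv_one, Units.val_one, Matrix.one_mul, Matrix.mul_one,
      Matrix.det_one, one_smul]

/-- **The Taylor–Wiles primes of S56 satisfy `IsTWPrime`** for `M = ad⁰ ρbar`, `M' = ad⁰ ρbar (1)`. -/
theorem isTWPrime_Mrep [Finite k] {p : ℕ} (hp : p.Prime) [CharP k p] (h2 : (2 : k) ≠ 0) (q : ℕ)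
    [Fact q.Prime] (hqp : q ≠ p) (hdvd : p ∣ q - 1) (hunr : ∀ s ∈ Iq q, rbar s = 1) (φ : GQ)
    (hφ : φ ∈ Dq q) (hns : NotScalar (rbar φ : Matrix (Fin 2) (Fin 2) k)) :
    IsTWPrime p (Mrep rbar) (MrepTw rbar) q where
  ne := hqp
  unrM := fun s hs => (unr_of_rbar_eq_one rbar (hunr s hs)).1
  unrM' := fun s hs => (unr_of_rbar_eq_one rbar (hunr s hs)).2
  tame := tameInput q (Mrep rbar) hp hdvd fun m => nsmul_eq_zero_of_charP k p m
  fix := card_fix_le rbar h2 q φ hφ hns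

/-! ### `card_step` in the language of `CocDefs` -/

lemma freeAt_LcFam (p : ℕ) (Smin Q : Finset ℕ) (Pp : GaloisRepAdic (DualNumber k) → Prop)
    (hp : p ∈ Smin) (hdisj : Disjoint Smin Q) :
    freeAt (LcFam rbar p Smin Pp) Q = LcFam rbar p Smin Pp := by
  funext q hq
  by_cases hqQ : q ∈ Q
  · rw [freeAt_of_mem _ hqQ]
    have hqS : q ∉ Smin := fun h => Finset.disjoint_left.1 hdisj h hqQ
    have hqp : q ≠ p := fun h => hqS (h ▸ hp)
    rw [LcFam_of_not_mem p Smin Pp q hqp hqS]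
  · rw [freeAt_of_notMem _ hqQ]

/-- **The Taylor–Wiles step for S56** (`Lq = LcFam rbar p Smin Pp`, `Sel (Smin ∪ Q)` = helper18's
`SelT`). -/
theorem card_step_Mrep [Finite k] {p : ℕ} [Fact p.Prime] [CharP k p]
    (LP : LocPairing p (Mrep rbar) (MrepTw rbar)) (Smin Q : Finset ℕ) (hpS : p ∈ Smin)
    (hSmin : ∀ q ∈ Smin, q.Prime) (hQ : ∀ q ∈ Q, q.Prime) (hdisj : Disjoint Smin Q)
    (hTW : ∀ (q : ℕ) [Fact q.Prime], q ∈ Q → IsTWPrime p (Mrep rbar) (MrepTw rbar) q)
    (hunr : ∀ (q : ℕ) [Fact q.Prime], q ∉ Smin → ∀ s ∈ Iq q, rbar s = 1)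
    (Pp : GaloisRepAdic (DualNumber k) → Prop)
    [hf1 : Finite (Sel (Smin ∪ Q) (LocCond.ofLocal (LcFam rbar p Smin Pp)))]
    [hf2 : Finite (Sel Smin (LocCond.ofLocal (LP.perp (LcFam rbar p Smin Pp))))] :
    Nat.card (Sel (Smin ∪ Q) (LocCond.ofLocal (LcFam rbar p Smin Pp))) *
        Nat.card (Sel Smin (LocCond.ofLocal (LP.perp (LcFam rbar p Smin Pp)))) ≤
      Nat.card (Sel Smin (LocCond.ofLocal (LcFam rbar p Smin Pp))) * (Nat.card k) ^ Q.card *
        Nat.card (StepS.DQ LP Smin Q (LcFam rbar p Smin Pp)) := by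
  have h := freeAt_LcFam rbar p Smin Q Pp hpS hdisj
  haveI : Finite (Mrep rbar) := inferInstanceAs (Finite ↥(sl2 k))
  haveI : Finite (MrepTw rbar) := inferInstanceAs (Finite ↥(sl2 k))
  haveI : Finite (Sel (Smin ∪ Q) (LocCond.ofLocal (freeAt (LcFam rbar p Smin Pp) Q))) := by
    rw [h]; exact hf1
  have key := StepS.card_step LP Smin Q hSmin hQ hdisj hTW hpS
    (fun q _ hq s hs => unr_of_rbar_eq_one rbar (hunr q hq s hs)) (LcFam rbar p Smin Pp)
    (fun q _ _ => B1_le_LcFam p Smin Pp q)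
  rw [h] at key
  exact key

end Fermat.Agent.S56.TW.TWPrime
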