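/-
PROJECT T (S56), block (a1-I) = S56/TW (helper21): the inputs of `TWPrime.isTWPrime_Mrep` and
`TWPrime.card_step_Mrep` FROM THE HYPOTHESES OF S56, for a residual representation `ρbar` with a
basis `b` and its matrix form `rbar` (`hb : rbar g = toMatrix b b (ρbar.ρ g)`, the shape of
helper9's `Cheb/Galois/Export`).

* `rbar_unr_of_isUnramifiedAt` : `ρbar.IsUnramifiedAt q → ∀ s ∈ Iq q, rbar s = 1`;
* `rbar_unr_of_hmin`           : the hypothesis `hunr` of `card_step_Mrep` from `hmin` of S56;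
* `isTWPrime_of_residual`      : `IsTWPrime` from `q ≠ p`, `p ∣ q - 1`, unramifiedness and the
                                 regular-split clause of S56 (Frobenius at `padicPlace q`).
-/
import Fermat.Prelude.Def_GaloisRep_Residual
import Fermat.Agent.Lib.FrobeniusExists
import Fermat.Agent.S56.TW.TWPrime

set_option autoImplicit false

namespace Fermat.Agent.S56.TW.OfResidual

open Matrix Polynomial
open Fermat.Agent.CFT.LC Fermat.Agent.CFT.Bridge Fermat.Agent.CFT.LocalBridge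
open Fermat.Agent.S56.Coh Fermat.Agent.S56.Coh.CocDefs Fermat.Agent.S56.TW.Step
open Fermat.Agent.S56.TW.TWPrime

variable {k : Type} [Field k] (ρbar : ResidualGaloisRep k) (b : Module.Basis (Fin 2) k ρbar.V)
  (rbar : GQ →* GL (Fin 2) k)
  (hb : ∀ g : GQ, (rbar g : Matrix (Fin 2) (Fin 2) k) = LinearMap.toMatrix b b (ρbar.ρ g))

include hb

lemma rbar_eq_one_of_ρ_eq_one {g : GQ} (h : ρbar.ρ g = 1) : rbar g = 1 := by
  apply Units.ext
  rw [hb, h, Units.val_one]
  exact LinearMap.toMatrix_one b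

lemma rbar_unr_of_isUnramifiedAt (q : ℕ) [Fact q.Prime] (h : ρbar.IsUnramifiedAt q) :
    ∀ s ∈ Iq q, rbar s = 1 := fun s hs =>
  rbar_eq_one_of_ρ_eq_one ρbar b rbar hb (h (padicPlace q) (liesOverPrime_padicPlace q) s hs)

/-- The hypothesis `hunr` of `card_step_Mrep` from the hypothesis `hmin` of S56. -/
lemma rbar_unr_of_hmin {p : ℕ} {Smin : Finset ℕ} (hpS : p ∈ Smin)
    (hmin : ∀ q : ℕ, q.Prime → q ≠ p → (q ∈ Smin ↔ ¬ ρbar.IsUnramifiedAt q)) :
    ∀ (q : ℕ) [Fact q.Prime], q ∉ Smin → ∀ s ∈ Iq q, rbar s = 1 := by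
  intro q hq hqS
  have hqp : q ≠ p := fun h => hqS (h ▸ hpS)
  have hur : ρbar.IsUnramifiedAt q := by
    by_contra hcon
    exact hqS ((hmin q hq.out hqp).2 hcon)
  exact rbar_unr_of_isUnramifiedAt ρbar b rbar hb q hur

lemma charpoly_rbar (g : GQ) :
    (rbar g : Matrix (Fin 2) (Fin 2) k).charpoly = LinearMap.charpoly (ρbar.ρ g) := by
  rw [hb]
  exact LinearMap.charpoly_toMatrix (ρbar.ρ g) b

/-- **The Taylor–Wiles primes of S56 satisfy `IsTWPrime`**, in the language of the statement. -/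
theorem isTWPrime_of_residual [Finite k] {p : ℕ} (hp : p.Prime) [CharP k p] (h2 : (2 : k) ≠ 0)
    (q : ℕ) [Fact q.Prime] (hqp : q ≠ p) (hdvd : p ∣ q - 1) (hur : ρbar.IsUnramifiedAt q)
    (hreg : ∀ P : ValuationSubring (AlgebraicClosure ℚ), P.LiesOverPrime q →
      ∀ φ : AlgebraicClosure ℚ ≃ₐ[ℚ] AlgebraicClosure ℚ, P.IsFrobeniusAt φ q →
        ∃ α β : k, α ≠ β ∧ LinearMap.charpoly (ρbar.ρ φ) = (X - C α) * (X - C β)) :
    IsTWPrime p (Mrep rbar) (MrepTw rbar) q := by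
  have hq : q.Prime := Fact.out
  have hA := liesOverPrime_padicPlace q
  obtain ⟨φ, hφ⟩ :=
    Fermat.Agent.Lib.FrobeniusExists.exists_isFrobeniusAt_algebraicClosure (padicPlace q) hq hA
  obtain ⟨α, β, hαβ, hchar⟩ := hreg (padicPlace q) hA φ hφ
  refine isTWPrime_Mrep rbar hp h2 q hqp hdvd (rbar_unr_of_isUnramifiedAt ρbar b rbar hb q hur) φ
    hφ.mem_decompositionSubgroup ?_
  refine notScalar_of_charpoly hαβ ?_
  rw [charpoly_rbar ρbar b rbar hb]
  exact hchar

end Fermat.Agent.S56.TW.OfResidual
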