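/-
PROJECT T (S56), block (a1-I) = S56/TW (helper21): the last factor `card D_Q` of `StepS.card_step`
is `1` (for the pairing interface `LocPairing` and `TW/StepS`) as soon as every Selmer cocycle of `Sel(Smin, Lq^⊥)` that is locally a coboundary at all
`q ∈ Q` is a global coboundary (the hypothesis `hDQ` of the chief's `Count/Main.exists_card_sel_le`).
-/
import Fermat.Agent.S56.TW.StepS

set_option autoImplicit false

namespace Fermat.Agent.S56.TW.DQS

open CategoryTheory groupCohomology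
open Fermat.Agent.CFT.LC Fermat.Agent.CFT.Bridge Fermat.Agent.S56.Coh Fermat.Agent.S56.TW.StepS

variable {k : Type} [Field k] {p : ℕ} {M M' : Rep.{0} k GQ}

/-- `D_Q` is trivial when no non-trivial class of `Sel(Smin, Lq^⊥)` is locally trivial at all
primes of `Q`. -/
theorem card_DQ_eq_one (LP : LocPairing p M M') (Smin Q : Finset ℕ) (Lq : LocFam M)
    (h : ∀ y ∈ SelZ Smin (LocCond.ofLocal (LP.perp Lq)),
      (∀ (q : ℕ) [Fact q.Prime], q ∈ Q → resFun (Dq q) y ∈ B1 (Dq q) M') → y ∈ B1g M') :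
    Nat.card (DQ LP Smin Q Lq) = 1 := by
  have hsub : Subsingleton (DQ LP Smin Q Lq) := by
    refine ⟨fun a b => ?_⟩
    obtain ⟨x, rfl⟩ := Submodule.Quotient.mk_surjective _ a
    obtain ⟨y, rfl⟩ := Submodule.Quotient.mk_surjective _ b
    rw [Submodule.Quotient.eq, Submodule.mem_comap]
    have hx : x.1 ∈ B1g M' := h x.1 x.2.1 x.2.2
    have hy : y.1 ∈ B1g M' := h y.1 y.2.1 y.2.2
    exact Submodule.sub_mem _ hx hy
  exact Nat.card_unique

/-- The classes of `D_Q` inject into `Sel(Smin, Lq^⊥)`. -/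
theorem card_DQ_le (LP : LocPairing p M M') (Smin Q : Finset ℕ) (Lq : LocFam M)
    [Finite (Sel Smin (LocCond.ofLocal (LP.perp Lq)))] :
    Nat.card (DQ LP Smin Q Lq) ≤ Nat.card (Sel Smin (LocCond.ofLocal (LP.perp Lq))) := by
  let f : DQ LP Smin Q Lq →ₗ[k] Sel Smin (LocCond.ofLocal (LP.perp Lq)) :=
    Submodule.mapQ _ _ (Submodule.inclusion (DZ_le_SelZ LP Smin Q Lq)) (by
      intro c hc
      rw [Submodule.mem_comap] at hc ⊢
      exact hc)
  refine Nat.card_le_card_of_injective f ?_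
  rw [← LinearMap.ker_eq_bot, LinearMap.ker_eq_bot']
  intro a ha
  obtain ⟨x, rfl⟩ := Submodule.Quotient.mk_surjective _ a
  have h1 : f (Submodule.Quotient.mk x) =
      Submodule.Quotient.mk (Submodule.inclusion (DZ_le_SelZ LP Smin Q Lq) x) := rfl
  rw [h1, Submodule.Quotient.mk_eq_zero, Submodule.mem_comap] at ha
  rw [Submodule.Quotient.mk_eq_zero, Submodule.mem_comap]
  exact ha

end Fermat.Agent.S56.TW.DQS
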