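/-
# `p`-th roots of unity in characteristic `q` with `p ∣ q - 1` lie in the prime field

If `F` is a field of prime characteristic `q` and `p ∣ q - 1`, then the prime field `ZMod q`
already contains a primitive `p`-th root of unity, so every `ζ : F` with `ζ ^ p = 1` is in the
image of `ZMod q` and is therefore fixed by every ring endomorphism of `F`.
-/
import Mathlib

set_option autoImplicit false

namespace Fermat.Agent.S56.TW.RootFix

/-- `ZMod q` contains a primitive `p`-th root of unity when `p ∣ q - 1`. -/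
theorem exists_isPrimitiveRoot_zmod (p q : ℕ) [Fact q.Prime] (hq1 : p ∣ q - 1) :
    ∃ ω : ZMod q, IsPrimitiveRoot ω p := by
  have hq : q.Prime := Fact.out
  obtain ⟨g, hg⟩ := IsCyclic.exists_generator (α := (ZMod q)ˣ)
  have hord : orderOf g = q - 1 := by
    rw [orderOf_eq_card_of_forall_mem_zpowers hg, Nat.card_eq_fintype_card, ZMod.card_units]
  have hprim : IsPrimitiveRoot g (q - 1) := hord ▸ IsPrimitiveRoot.orderOf g
  obtain ⟨m, hm⟩ := hq1
  have hq1pos : 0 < q - 1 := Nat.sub_pos_of_lt hq.one_lt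
  have hm0 : m ≠ 0 := by
    rintro rfl
    rw [mul_zero] at hm
    omega
  have hprim' : IsPrimitiveRoot (g ^ m) p := by
    refine hprim.pow hq1pos ?_
    rw [hm, mul_comm]
  exact ⟨((g ^ m : (ZMod q)ˣ) : ZMod q), IsPrimitiveRoot.coe_units_iff.mpr hprim'⟩

/-- Every `p`-th root of unity of a field of characteristic `q`, `p ∣ q - 1`, is the image of an
element of the prime field. -/
theorem exists_zmod_cast_eq {F : Type*} [Field F] (p q : ℕ) [Fact q.Prime] [CharP F q]
    (hq1 : p ∣ q - 1) (ζ : F) (hζ : ζ ^ p = 1) :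
    ∃ a : ZMod q, ZMod.castHom (dvd_refl q) F a = ζ := by
  have hq : q.Prime := Fact.out
  have hp0 : p ≠ 0 := by
    rintro rfl
    have h0 : q - 1 = 0 := Nat.eq_zero_of_zero_dvd hq1
    have := hq.one_lt
    omega
  have : NeZero p := ⟨hp0⟩
  obtain ⟨ω, hω⟩ := exists_isPrimitiveRoot_zmod p q hq1
  have hω' : IsPrimitiveRoot (ZMod.castHom (dvd_refl q) F ω) p :=
    hω.map_of_injective (ZMod.castHom (dvd_refl q) F).injective
  obtain ⟨i, _, hi⟩ := hω'.eq_pow_of_pow_eq_one hζ
  exact ⟨ω ^ i, by rw [map_pow, hi]⟩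

/-- **Root fixing.** In characteristic `q` with `p ∣ q - 1`, every ring endomorphism fixes every
`p`-th root of unity. -/
theorem ringHom_eq_of_pow_eq_one {F : Type*} [Field F] (p q : ℕ) [Fact q.Prime] [CharP F q]
    (hq1 : p ∣ q - 1) (ζ : F) (hζ : ζ ^ p = 1) (σ : F →+* F) : σ ζ = ζ := by
  obtain ⟨a, rfl⟩ := exists_zmod_cast_eq p q hq1 ζ hζ
  have h : σ.comp (ZMod.castHom (dvd_refl q) F) = ZMod.castHom (dvd_refl q) F :=
    RingHom.ext_zmod _ _
  exact RingHom.congr_fun h a

/-- **Root fixing**, ring automorphism form. -/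
theorem map_eq_of_pow_eq_one {F : Type*} [Field F] (p q : ℕ) [Fact q.Prime] [CharP F q]
    (hq1 : p ∣ q - 1) (ζ : F) (hζ : ζ ^ p = 1) (σ : F ≃+* F) : σ ζ = ζ :=
  ringHom_eq_of_pow_eq_one p q hq1 ζ hζ (σ : F →+* F)

end Fermat.Agent.S56.TW.RootFix
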